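import Fermat.Agent.H91.ES1KL.Interfaces1
import Fermat.Agent.H2.KLBRGen
import Fermat.Agent.H69.ES1Finite
import Fermat.Agent.H99.ES1.VFun
import Fermat.Agent.H60.LatSum
import Fermat.Agent.H87.ES1.LatSumQExp

/-!
# P-DS / ES1-KL-BR1 (row 810): `Br1Statement` from `Br1DataStatement`

Glue: `Fermat.Agent.H2.klbr_modelGen_j` + finiteness of `ℚ̄ · F1 M` over `ℚ̄(j)`
(`Fermat.Agent.H69.ES1.finiteDimensional_F1`, with the landed `VFunStatement`).
-/

set_option autoImplicit false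

noncomputable section

namespace Fermat.Agent.H17.ES1KL

open Fermat.Agent.H91.ES1KL Fermat.Agent.H29.ES1

/-- `VFunStatement`, unconditional (landed pieces of helper99, helper60, helper87). -/
theorem br1_vFun : VFunStatement :=
  Fermat.Agent.H99.ES1.vFunStatement Fermat.Agent.H60.latSumStatement
    Fermat.Agent.H87.ES1.latSumQExp

/-- **BR1** from **BR1-DATA**. -/
theorem br1_of_data (hD : Br1DataStatement) : Br1Statement := by
  intro M _ hM ℓ hℓ h5 hℓM
  have hM1 : 1 < M := by omega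
  have hfin := Fermat.Agent.H69.ES1.finiteDimensional_F1 br1_vFun M hM1 (AlgebraicClosure ℚ)
  have h2ℓ : Nat.Coprime 2 ℓ := by
    rw [Nat.coprime_comm, Nat.Prime.coprime_iff_not_dvd hℓ]
    intro h
    have := Nat.le_of_dvd (by norm_num) h
    omega
  have h3ℓ : Nat.Coprime 3 ℓ := by
    rw [Nat.coprime_comm, Nat.Prime.coprime_iff_not_dvd hℓ]
    intro h
    have := Nat.le_of_dvd (by norm_num) h
    omega
  have hMℓ : Nat.Coprime M ℓ := by
    rw [Nat.coprime_comm, Nat.Prime.coprime_iff_not_dvd hℓ]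
    exact hℓM
  have hM0 : M ≠ 0 := by omega
  exact Fermat.Agent.H2.klbr_modelGen_j (F1 M) (jq_mem_F1 (M := M)) M hfin (hD M hM) ℓ h2ℓ h3ℓ hMℓ
    (6 * M) (by omega) ⟨3 * M, by ring⟩ ⟨2 * M, by ring⟩ ⟨6, by ring⟩

end Fermat.Agent.H17.ES1KL
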